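import Mathlib
import Fermat.Agent.SS.Germ.Close
import Fermat.Agent.SS.Geo.CuspSep
import Fermat.Agent.SS.Geo.ChartInv
import Fermat.Agent.ST.Defs

/-!
# Program T (S35), concrete side (B2-germ) : THE GERM HYPOTHESES OF `st_toric` (prefix `stcg_`)

The two germ hypotheses `hgerm0`, `hgerminf` of the abstract toric theorem `st_toric` (`ST/Tor.lean`)
for the concrete curve : `F = F_E(M q)`, `q ∤ M`, `A = 𝔸 ∩ E`, coordinate `t = j` (`q ≥ 5`) resp.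
`t = h_a` (`q ∈ {2,3}`, `a = 5 - q`, `a ∣ M`), group `G = ssInertiaE E (M q) 𝔸`, and an ARBITRARY
semilinear automorphism `σ` satisfying the one hypothesis

  `hpull : ∀ 𝔫, 𝔫.IsMaximal → ϖ ∈ 𝔫 → StOn V₁ t 𝔫 → StOn V₂ t 𝔫 → StPull t σ 𝔫 𝔫`

(the points on both components are `σ`-stable; supplied by `str2_pull`, `ST/Rat2.lean`).

* first clause of `StGermAt` (smooth ∨ crossing germ) : Program S, `ss_germJ`, `ss_germH`
  (`SS/Germ/Close.lean`);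
* second clause on the finite chart : `hpull`;
* second clause at the cusps of `t = j` : VACUOUS, no cusp lies on both components
  (`stcg_no_cross_j`, from `ssgc_no_cross` and the modular equation `ssgcl_modPoly_over`);
* second clause on the chart `h_a⁻¹` : `hpull` for the chart `h_a⁻¹` (both charts of `h_a` are finite
  charts for the germ machinery, so `str2_pull` applies to both).
-/

set_option autoImplicit false
set_option linter.unusedSectionVars false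
set_option linter.unusedVariables false
set_option linter.style.haveILetI false
set_option synthInstance.maxHeartbeats 400000

noncomputable section

namespace Fermat.Agent.ST

open Polynomial ModularCurve AlgebraicCurve IntermediateField IsLocalRing Fermat.Agent.S18
  Fermat.Agent.SS Fermat.Agent.G

local notation "Qb" => AlgebraicClosure ℚ

/-! ### abstract glue -/

section Abs

universe u

variable {A : Type*} [CommRing A] [IsDomain A] [IsDiscreteValuationRing A] [CharZero A]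
variable {L : Type*} [Field L] [Algebra A L] [IsFractionRing A L]
variable {F : Type u} [Field F] [Algebra A F] [Algebra L F] [IsScalarTower A L F]
variable {ϖ : A}

/-- `StRes` and `SsResRational` are the same predicate. -/
theorem stcg_res_iff (t : F) (𝔫 : Ideal ↥(s18tInt A t)) : StRes t 𝔫 ↔ SsResRational t 𝔫 :=
  Iff.rfl

/-- the germ hypothesis at one closed point from a germ and the stability of the points on both
components. -/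
theorem stcg_germAt {t : F} (G : Subgroup (SemilinearAut L F)) (V₁ V₂ : ValuationSubring F)
    (σ : SemilinearAut L F) (𝔫 : Ideal ↥(s18tInt A t))
    (hgerm : SsGermSmooth ϖ t G 𝔫 ∨ SsGermCross ϖ t G 𝔫)
    (hpull : StOn V₁ t 𝔫 → StOn V₂ t 𝔫 → StPull t σ 𝔫 𝔫) : StGermAt ϖ t G V₁ V₂ σ 𝔫 :=
  ⟨hgerm, hpull⟩

/-- the germ hypothesis at a closed point which does not lie on both components. -/
theorem stcg_germAt_of_not {t : F} (G : Subgroup (SemilinearAut L F)) (V₁ V₂ : ValuationSubring F)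
    (σ : SemilinearAut L F) (𝔫 : Ideal ↥(s18tInt A t))
    (hgerm : SsGermSmooth ϖ t G 𝔫 ∨ SsGermCross ϖ t G 𝔫)
    (hnot : ¬ (StOn V₁ t 𝔫 ∧ StOn V₂ t 𝔫)) : StGermAt ϖ t G V₁ V₂ σ 𝔫 :=
  ⟨hgerm, fun h₁ h₂ => (hnot ⟨h₁, h₂⟩).elim⟩

end Abs

/-! ### the coordinate `j` : no cusp lies on both components -/

section J

variable {q : ℕ} [Fact q.Prime] [NeZero q] (𝔸 : ValuationSubring Qb)
  (E : IntermediateField ℚ Qb)
variable (M : ℕ) [NeZero M]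

/-- `j ≠ 0` -/
theorem stcg_j_ne_zero (N : ℕ) [NeZero N] : ssdJ E N ≠ 0 := by
  intro h0
  exact ssd_transcendental_j E N (by rw [h0]; exact isAlgebraic_zero)

/-- (L7-DEG) the separating function `f = j⁻¹^q · j(q τ)` of the two cusps over `j = ∞` is integral
over `A[j⁻¹]`. -/
theorem stcg_sep_mem_j (hA : 𝔸.LiesOverPrime q) :
    (ssdJ E (M * q))⁻¹ ^ q * ssvmmY E M q ∈ s18tInt ↥(s18dVal 𝔸 E) (ssdJ E (M * q))⁻¹ := by
  have hq : q.Prime := Fact.out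
  obtain ⟨Φ, MP⟩ := ssgcl_modPoly_over q 𝔸 hA E
  obtain ⟨p, hrel, hmonic, hdeg₀, hdeg, -⟩ := ssgnp_deg 𝔸 E M q MP
  refine ssgc_sep_mem _ _ (inv_ne_zero (stcg_j_ne_zero E (M * q))) q p ?_ hmonic ?_
  · rw [inv_inv]
    exact hrel
  · intro i hi
    rcases Nat.eq_zero_or_pos i with rfl | h0
    · refine hdeg₀.trans ?_
      rw [Nat.sub_zero]
      exact Nat.le_mul_of_pos_left _ hq.pos
    · refine (hdeg i h0 hi).trans ?_
      exact Nat.le_mul_of_pos_right _ (by omega)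

variable [IsDiscreteValuationRing ↥(s18dVal 𝔸 E)] [CharZero ↥(s18dVal 𝔸 E)]

/-- **NO CUSP OF THE CHART `j⁻¹` LIES ON BOTH COMPONENTS.** -/
theorem stcg_no_cross_j (hA : 𝔸.LiesOverPrime q) {ϖ : ↥(s18dVal 𝔸 E)} (hϖ : Irreducible ϖ)
    {u₁ u₂ : modularFunctionFieldFullC E (M * q)}
    {V₁ V₂ : ValuationSubring (modularFunctionFieldFullC E (M * q))}
    (h2 : SsvTwo hϖ (ssdJ E (M * q)) u₁ u₂ V₁ V₂)
    (h₁ : ssvmmY E M q - ssdJ E (M * q) ^ q ∈ V₁.nonunits)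
    (h₂ : ssvmmY E M q ^ q - ssdJ E (M * q) ∈ V₂.nonunits)
    (𝔫 : Ideal ↥(s18tInt ↥(s18dVal 𝔸 E) (ssdJ E (M * q))⁻¹)) [𝔫.IsPrime]
    (hcusp : ssglTinv (ssdJ E (M * q)) ∈ 𝔫) :
    ¬ (StOn V₁ (ssdJ E (M * q))⁻¹ 𝔫 ∧ StOn V₂ (ssdJ E (M * q))⁻¹ 𝔫) := by
  rintro ⟨hon₁, hon₂⟩
  have hq : q.Prime := Fact.out
  have h2' := ssgtop_two_inv hϖ (ssd_transcendental_j E (M * q)) h2
  have hQ₁ : ∀ x ∈ s18tInt ↥(s18dVal 𝔸 E) (ssdJ E (M * q))⁻¹, x ∈ V₁ := fun x hx =>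
    ((h2'.mem_iff x).mp (s18tInt_le_intLoc hϖ _ hx)).1
  have hQ₂ : ∀ x ∈ s18tInt ↥(s18dVal 𝔸 E) (ssdJ E (M * q))⁻¹, x ∈ V₂ := fun x hx =>
    ((h2'.mem_iff x).mp (s18tInt_le_intLoc hϖ _ hx)).2
  refine ssgc_no_cross (ssdJ E (M * q))⁻¹ (ssvmmY E M q) q hq.two_le
    (inv_ne_zero (stcg_j_ne_zero E (M * q))) V₁ V₂ hQ₁ hQ₂ (stcg_sep_mem_j 𝔸 E M hA) ?_ ?_ 𝔫 hcusp
    hon₁ hon₂
  · rw [inv_inv]
    exact h₁
  · rw [inv_inv]
    exact h₂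

end J

/-! ### the germ hypotheses of `st_toric` -/

/-- **(B2-germ) for `t = j`, `q ≥ 5`** : the hypotheses `hgerm0`, `hgerminf` of `st_toric` at level
`M q`, for all big enough number fields `E`, the group `G = ssInertiaE E (M q) 𝔸` and ANY semilinear
automorphism `σ` stabilising the closed points of the finite chart lying on both components. -/
theorem stcg_germ_j (M : ℕ) [NeZero M] (q : ℕ) [Fact q.Prime] [NeZero q] (hqM : ¬ q ∣ M)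
    (h5 : 5 ≤ q) (𝔸 : ValuationSubring Qb) (hA : 𝔸.LiesOverPrime q) :
    ∃ (E₁ : IntermediateField ℚ Qb) (_ : FiniteDimensional ℚ E₁),
      ∀ (E : IntermediateField ℚ Qb) [FiniteDimensional ℚ E] [Normal ℚ E]
        [IsDiscreteValuationRing ↥(s18dVal 𝔸 E)] [CharZero ↥(s18dVal 𝔸 E)], E₁ ≤ E →
        ∀ (ϖ : ↥(s18dVal 𝔸 E)) (hϖ : Irreducible ϖ)
          (u₁ u₂ : modularFunctionFieldFullC E (M * q))
          (V₁ V₂ : ValuationSubring (modularFunctionFieldFullC E (M * q))),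
          SsvTwo hϖ (ssdJ E (M * q)) u₁ u₂ V₁ V₂ →
          ssvmmY E M q - ssdJ E (M * q) ^ q ∈ V₁.nonunits →
          ssvmmY E M q ^ q - ssdJ E (M * q) ∈ V₂.nonunits →
          ∀ σ : SemilinearAut E (modularFunctionFieldFullC E (M * q)),
          (∀ 𝔫 : Ideal ↥(s18tInt ↥(s18dVal 𝔸 E) (ssdJ E (M * q))), 𝔫.IsMaximal →
            sskPi ϖ (ssdJ E (M * q)) ∈ 𝔫 → StRes (ssdJ E (M * q)) 𝔫 →
            StOn V₁ (ssdJ E (M * q)) 𝔫 → StOn V₂ (ssdJ E (M * q)) 𝔫 →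
            StPull (ssdJ E (M * q)) σ 𝔫 𝔫) →
          (∀ 𝔫 : Ideal ↥(s18tInt ↥(s18dVal 𝔸 E) (ssdJ E (M * q))), 𝔫.IsMaximal →
            sskPi ϖ (ssdJ E (M * q)) ∈ 𝔫 → StRes (ssdJ E (M * q)) 𝔫 →
            StGermAt ϖ (ssdJ E (M * q)) (ssInertiaE E (M * q) 𝔸) V₁ V₂ σ 𝔫) ∧
          (∀ 𝔫 : Ideal ↥(s18tInt ↥(s18dVal 𝔸 E) (ssdJ E (M * q))⁻¹), 𝔫.IsMaximal →
            sskPi ϖ (ssdJ E (M * q))⁻¹ ∈ 𝔫 →
            ssglTinv (A := ↥(s18dVal 𝔸 E)) (ssdJ E (M * q)) ∈ 𝔫 →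
            StRes (ssdJ E (M * q))⁻¹ 𝔫 →
            StGermAt ϖ (ssdJ E (M * q))⁻¹ (ssInertiaE E (M * q) 𝔸) V₁ V₂ σ 𝔫) := by
  obtain ⟨E₁, hE₁, hE⟩ := ss_germJ M q hqM h5 𝔸 hA
  refine ⟨E₁, hE₁, ?_⟩
  intro E _ _ _ _ hle ϖ hϖ u₁ u₂ V₁ V₂ h2 h₁ h₂ σ hpull
  obtain ⟨g0, gInf⟩ := hE E hle
  refine ⟨fun 𝔫 h𝔫 hϖ𝔫 hres => ?_, fun 𝔫 h𝔫 hϖ𝔫 hcusp hres => ?_⟩
  · exact stcg_germAt _ V₁ V₂ σ 𝔫 (g0 ϖ hϖ 𝔫 h𝔫 hϖ𝔫 hres) (hpull 𝔫 h𝔫 hϖ𝔫 hres)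
  · haveI := h𝔫.isPrime
    exact stcg_germAt_of_not _ V₁ V₂ σ 𝔫 (gInf ϖ hϖ 𝔫 h𝔫 hϖ𝔫 hcusp hres)
      (stcg_no_cross_j 𝔸 E M hA hϖ h2 h₁ h₂ 𝔫 hcusp)

/-- **(B2-germ) for `t = h_a`, `q ∈ {2,3}`, `a = 5 - q`, `a ∣ M`** : the hypotheses `hgerm0`,
`hgerminf` of `st_toric` at level `M q`, for all big enough number fields `E`, the group
`G = ssInertiaE E (M q) 𝔸` and ANY semilinear automorphism `σ` stabilising the closed points lying on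
both components (of the chart `h_a`, and of the chart `h_a⁻¹` above `h_a⁻¹ = 0`). -/
theorem stcg_germ_h (M : ℕ) [NeZero M] (q : ℕ) [Fact q.Prime] [NeZero q] (a : ℕ) [NeZero a]
    (ha : a = 2 ∨ a = 3) (haM : a ∣ M) (hqa : (q = 2 ∧ a = 3) ∨ (q = 3 ∧ a = 2)) (hqM : ¬ q ∣ M)
    (𝔸 : ValuationSubring Qb) (hA : 𝔸.LiesOverPrime q) :
    ∃ (E₁ : IntermediateField ℚ Qb) (_ : FiniteDimensional ℚ E₁),
      ∀ (E : IntermediateField ℚ Qb) [FiniteDimensional ℚ E] [Normal ℚ E]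
        [IsDiscreteValuationRing ↥(s18dVal 𝔸 E)] [CharZero ↥(s18dVal 𝔸 E)], E₁ ≤ E →
        ∀ (ϖ : ↥(s18dVal 𝔸 E)) (hϖ : Irreducible ϖ)
          (V₁ V₂ : ValuationSubring (modularFunctionFieldFullC E (M * q)))
          (σ : SemilinearAut E (modularFunctionFieldFullC E (M * q))),
          (∀ 𝔫 : Ideal ↥(s18tInt ↥(s18dVal 𝔸 E) (ssgH E (M * q) a ha (Dvd.dvd.mul_right haM q))),
            𝔫.IsMaximal → sskPi ϖ (ssgH E (M * q) a ha (Dvd.dvd.mul_right haM q)) ∈ 𝔫 →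
            StRes (ssgH E (M * q) a ha (Dvd.dvd.mul_right haM q)) 𝔫 →
            StOn V₁ (ssgH E (M * q) a ha (Dvd.dvd.mul_right haM q)) 𝔫 →
            StOn V₂ (ssgH E (M * q) a ha (Dvd.dvd.mul_right haM q)) 𝔫 →
            StPull (ssgH E (M * q) a ha (Dvd.dvd.mul_right haM q)) σ 𝔫 𝔫) →
          (∀ 𝔫 : Ideal ↥(s18tInt ↥(s18dVal 𝔸 E) (ssgH E (M * q) a ha (Dvd.dvd.mul_right haM q))⁻¹),
            𝔫.IsMaximal → sskPi ϖ (ssgH E (M * q) a ha (Dvd.dvd.mul_right haM q))⁻¹ ∈ 𝔫 →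
            ssglTinv (A := ↥(s18dVal 𝔸 E)) (ssgH E (M * q) a ha (Dvd.dvd.mul_right haM q)) ∈ 𝔫 →
            StRes (ssgH E (M * q) a ha (Dvd.dvd.mul_right haM q))⁻¹ 𝔫 →
            StOn V₁ (ssgH E (M * q) a ha (Dvd.dvd.mul_right haM q))⁻¹ 𝔫 →
            StOn V₂ (ssgH E (M * q) a ha (Dvd.dvd.mul_right haM q))⁻¹ 𝔫 →
            StPull (ssgH E (M * q) a ha (Dvd.dvd.mul_right haM q))⁻¹ σ 𝔫 𝔫) →
          (∀ 𝔫 : Ideal ↥(s18tInt ↥(s18dVal 𝔸 E) (ssgH E (M * q) a ha (Dvd.dvd.mul_right haM q))),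
            𝔫.IsMaximal → sskPi ϖ (ssgH E (M * q) a ha (Dvd.dvd.mul_right haM q)) ∈ 𝔫 →
            StRes (ssgH E (M * q) a ha (Dvd.dvd.mul_right haM q)) 𝔫 →
            StGermAt ϖ (ssgH E (M * q) a ha (Dvd.dvd.mul_right haM q)) (ssInertiaE E (M * q) 𝔸)
              V₁ V₂ σ 𝔫) ∧
          (∀ 𝔫 : Ideal ↥(s18tInt ↥(s18dVal 𝔸 E) (ssgH E (M * q) a ha (Dvd.dvd.mul_right haM q))⁻¹),
            𝔫.IsMaximal → sskPi ϖ (ssgH E (M * q) a ha (Dvd.dvd.mul_right haM q))⁻¹ ∈ 𝔫 →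
            ssglTinv (A := ↥(s18dVal 𝔸 E)) (ssgH E (M * q) a ha (Dvd.dvd.mul_right haM q)) ∈ 𝔫 →
            StRes (ssgH E (M * q) a ha (Dvd.dvd.mul_right haM q))⁻¹ 𝔫 →
            StGermAt ϖ (ssgH E (M * q) a ha (Dvd.dvd.mul_right haM q))⁻¹
              (ssInertiaE E (M * q) 𝔸) V₁ V₂ σ 𝔫) := by
  obtain ⟨E₁, hE₁, hE⟩ := ss_germH M q a ha haM hqa hqM 𝔸 hA
  refine ⟨E₁, hE₁, ?_⟩
  intro E _ _ _ _ hle ϖ hϖ V₁ V₂ σ hpull hpull'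
  obtain ⟨g0, gInf⟩ := hE E hle
  refine ⟨fun 𝔫 h𝔫 hϖ𝔫 hres => ?_, fun 𝔫 h𝔫 hϖ𝔫 hcusp hres => ?_⟩
  · exact stcg_germAt _ V₁ V₂ σ 𝔫 (g0 ϖ hϖ 𝔫 h𝔫 hϖ𝔫 hres) (hpull 𝔫 h𝔫 hϖ𝔫 hres)
  · exact stcg_germAt _ V₁ V₂ σ 𝔫 (gInf ϖ hϖ 𝔫 h𝔫 hϖ𝔫 hcusp hres) (hpull' 𝔫 h𝔫 hϖ𝔫 hcusp hres)

end Fermat.Agent.ST
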