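import Mathlib
import Fermat.Agent.SS.Germ.Close
import Fermat.Agent.SS.Val.ModGal
import Fermat.Agent.ST.Frob
import Fermat.Agent.ST.Rat2
import Fermat.Agent.ST.Conc.Germ

/-!
# Program T (S35), concrete side (B2-pull) : THE POINTS ON BOTH COMPONENTS ARE `s²`-STABLE
(prefix `stcp_`)

The hypothesis `hpull` of `stcg_germ_j` / `stcg_germ_h` (`ST/Conc/Germ.lean`) for the square of the
coefficientwise Frobenius lift : `s ∈ G_ℚ` a Frobenius lift at `𝔸 | q`, `sE = ssdAut E (M q) (s|_E)`,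
`σ = sE * sE`.  Instance of `str2_pull` (`ST/Rat2.lean`) :

* `α = ssvmdIncl E M q`, `φ = ssvmfPhi E M q`, `s₀ = ssdAutRing E M (s|_E)`;
* `P = α P₀ + 𝔭₁` : `ssgi_surj₁` of the SINGLE-FIELD instance `SsgiHyp` (`ssgms_hSingle_J/H`), whose
  valuation rings are identified with the given ones by `stcp_two_unique`;
* `φ P₀ ⊆ P` : `ssgtr_hInt_J`, `ssgnp_hInt`;
* FROB-s : `ssvmgl_frob_s` (`SS/Val/ModGal.lean`);
* `sE V₁ = V₁` : `ssvmgl_smul_V`;  `sE ∘ α = α ∘ s₀` : `ssvmgl_aut_incl`;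
* `sE P = P`, `s₀ P₀ = P₀` : `stb_int_smul` (`ST/Frob.lean`).
-/

set_option autoImplicit false
set_option linter.unusedSectionVars false
set_option linter.unusedVariables false
set_option linter.style.haveILetI false
set_option synthInstance.maxHeartbeats 400000

noncomputable section

namespace Fermat.Agent.ST

open Polynomial ModularCurve AlgebraicCurve IntermediateField IsLocalRing Fermat.Agent.S18
  Fermat.Agent.SS Fermat.Agent.G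

local notation "Qb" => AlgebraicClosure ℚ
local notation "GQ" => (AlgebraicClosure ℚ ≃ₐ[ℚ] AlgebraicClosure ℚ)

/-! ### uniqueness of the two valuation rings -/

section Abs

universe u

variable {A : Type*} [CommRing A] [IsDomain A] [IsDiscreteValuationRing A] [CharZero A]
variable {L : Type*} [Field L] [Algebra A L] [IsFractionRing A L]
variable {F : Type u} [Field F] [Algebra A F] [Algebra L F] [IsScalarTower A L F]
variable {ϖ : A}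

/-- `A[t]_(ϖ) ⊆ P_(ϖ)` -/
theorem stcp_loc_le_intLoc (hϖ : Irreducible ϖ) (t : F) {x : F}
    (hx : x ∈ s18tLoc A t (C ϖ) (s18t_prime_C hϖ)) :
    x ∈ s18tIntLoc A t (C ϖ) (s18t_prime_C hϖ) := by
  rw [mem_s18tIntLoc]
  exact isIntegral_algebraMap (x := (⟨x, hx⟩ : ↥(s18tLoc A t (C ϖ) (s18t_prime_C hϖ))))

/-- the two extensions of the Gauss valuation are determined by `u₁`, `u₂`. -/
theorem stcp_two_unique (hϖ : Irreducible ϖ) (t : F) {u₁ u₂ : F}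
    {V₁ V₂ W₁ W₂ : ValuationSubring F} (h : SsvTwo hϖ t u₁ u₂ V₁ V₂)
    (h' : SsvTwo hϖ t u₁ u₂ W₁ W₂) : W₁ = V₁ ∧ W₂ = V₂ := by
  have hle₁ : s18tLoc A t (C ϖ) (s18t_prime_C hϖ) ≤ W₁.toSubring := fun x hx =>
    ((h'.mem_iff x).mp (stcp_loc_le_intLoc hϖ t hx)).1
  have hle₂ : s18tLoc A t (C ϖ) (s18t_prime_C hϖ) ≤ W₂.toSubring := fun x hx =>
    ((h'.mem_iff x).mp (stcp_loc_le_intLoc hϖ t hx)).2
  have hϖ₁ : algebraMap A F ϖ ∈ W₁.nonunits := (W₁.mem_nonunits_iff).mpr h'.unif₁.1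
  have hϖ₂ : algebraMap A F ϖ ∈ W₂.nonunits := (W₂.mem_nonunits_iff).mpr h'.unif₂.1
  constructor
  · rcases h.cases W₁ hle₁ hϖ₁ with e | e
    · exact e
    · exfalso
      have h1 := h'.mem₁
      rw [e, V₂.mem_nonunits_iff, h.unit₁] at h1
      exact lt_irrefl _ h1
  · rcases h.cases W₂ hle₂ hϖ₂ with e | e
    · exfalso
      have h1 := h'.mem₂
      rw [e, V₁.mem_nonunits_iff, h.unit₂] at h1
      exact lt_irrefl _ h1
    · exact e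

/-- `x ∈ 𝔪_V → -x ∈ 𝔪_V`, in the form used below -/
theorem stcp_sub_comm_mem (V : ValuationSubring F) {x y : F} (h : x - y ∈ V.nonunits) :
    y - x ∈ V.nonunits := by
  rw [V.mem_nonunits_iff] at h ⊢
  rwa [← neg_sub, Valuation.map_neg]

end Abs

/-! ### the generic instance of `str2_pull` -/

section Conc

variable {q : ℕ} [Fact q.Prime] [NeZero q] (𝔸 : ValuationSubring Qb) (E : IntermediateField ℚ Qb)
  [Normal ℚ E] [IsDiscreteValuationRing ↥(s18dVal 𝔸 E)] [CharZero ↥(s18dVal 𝔸 E)]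

/-- the coefficientwise automorphism attached to `τ` preserving `𝔸 ∩ E` preserves the constants. -/
theorem stcp_base (N : ℕ) [NeZero N] (τ : E ≃ₐ[ℚ] E) (hτ : SsvmglStab 𝔸 E τ)
    (a : ↥(s18dVal 𝔸 E)) :
    ∃ b : ↥(s18dVal 𝔸 E),
      ssdAut E N τ • algebraMap ↥(s18dVal 𝔸 E) (modularFunctionFieldFullC E N) a =
        algebraMap ↥(s18dVal 𝔸 E) (modularFunctionFieldFullC E N) b := by
  refine ⟨ssvmglBase 𝔸 E τ hτ a, ?_⟩
  apply Subtype.ext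
  have h2 := s18v_coe_algebraMap (modularFunctionFieldFullC E N) a
  have h3 := s18v_coe_algebraMap (modularFunctionFieldFullC E N) (ssvmglBase 𝔸 E τ hτ a)
  rw [h3, coe_ssdAut_smul, h2, coeffMap_algebraMap]
  rfl

/-- `sE P ⊆ P` for a fixed coordinate -/
theorem stcp_int_smul (N : ℕ) [NeZero N] (τ : E ≃ₐ[ℚ] E) (hτ : SsvmglStab 𝔸 E τ)
    (t : modularFunctionFieldFullC E N) (ht : ssdAut E N τ • t = t)
    {x : modularFunctionFieldFullC E N} (hx : x ∈ s18tInt ↥(s18dVal 𝔸 E) t) :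
    ssdAut E N τ • x ∈ s18tInt ↥(s18dVal 𝔸 E) t :=
  stb_int_smul (ssdAut E N τ) ht (stcp_base 𝔸 E N τ hτ) hx

/-- `sE⁻¹ P ⊆ P` for a fixed coordinate -/
theorem stcp_int_inv_smul (N : ℕ) [NeZero N] (τ : E ≃ₐ[ℚ] E) (hτ : SsvmglStab 𝔸 E τ)
    (t : modularFunctionFieldFullC E N) (ht : ssdAut E N τ • t = t)
    {x : modularFunctionFieldFullC E N} (hx : x ∈ s18tInt ↥(s18dVal 𝔸 E) t) :
    (ssdAut E N τ)⁻¹ • x ∈ s18tInt ↥(s18dVal 𝔸 E) t := by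
  have e : (ssdAut E N τ)⁻¹ = ssdAut E N τ.symm := (map_inv (ssdAut E N) τ).symm
  rw [e]
  refine stcp_int_smul 𝔸 E N τ.symm hτ.symm t ?_ hx
  rw [← e, inv_smul_eq_iff, ht]

variable (M : ℕ) [NeZero M]

set_option maxHeartbeats 1000000 in
/-- **RAT2, concrete, generic in the coordinates** : for a Frobenius lift `s` at `𝔸 | q` the closed
points of the chart `t` lying on both components are stable under `σ = sE²`. -/
theorem stcp_pull (hA : 𝔸.LiesOverPrime q) (hqM : ¬ q ∣ M) {ϖ : ↥(s18dVal 𝔸 E)}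
    (hϖ : Irreducible ϖ) (s : GQ) (hs : 𝔸.IsFrobeniusAt s q)
    (t₀ : modularFunctionFieldFullC E M) (t : modularFunctionFieldFullC E (M * q))
    (hfix₀ : ssdAut E M (s.restrictNormal E) • t₀ = t₀)
    (hGauss : ∀ b ∈ s18tInt ↥(s18dVal 𝔸 E) t₀,
      b ∈ s18vO ↥(s18dVal 𝔸 E) (modularFunctionFieldFullC E M))
    (hInt : SsgtopIntPhi 𝔸 E M q t₀ t)
    {j₀ : ↥(s18dVal 𝔸 E) →+* ↥(s18dVal 𝔸 E)}
    {W₁ W₂ : ValuationSubring (modularFunctionFieldFullC E (M * q))}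
    (H : SsgiHyp hϖ j₀ ((ssvmdIncl E M q : modularFunctionFieldFullC E M →ₐ[E]
        modularFunctionFieldFullC E (M * q)) : modularFunctionFieldFullC E M →+*
        modularFunctionFieldFullC E (M * q)) (ssvmfPhi E M q) ϖ t₀ t W₁ W₂ q)
    {u₁ u₂ : modularFunctionFieldFullC E (M * q)} (hW : SsvTwo hϖ t u₁ u₂ W₁ W₂)
    (Ξ G : (↥(ssvmmR 𝔸 E M q))[X])
    (h : SsvAmb (ssvmmR 𝔸 E M q) (ssvmgRUnif (ssvmm_le E M q) ϖ) (ssvmmY E M q) Ξ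
        (X - C (ssvmmJ 𝔸 E M q ^ q)) (X ^ q - C (ssvmmJ 𝔸 E M q)) G)
    (h2 : SsvTwo hϖ t u₁ u₂ h.V₁ h.V₂)
    {V₁ V₂ : ValuationSubring (modularFunctionFieldFullC E (M * q))}
    (h2V : SsvTwo hϖ t u₁ u₂ V₁ V₂)
    (𝔫 : Ideal ↥(s18tInt ↥(s18dVal 𝔸 E) t)) (h𝔫 : 𝔫.IsMaximal)
    (hon₁ : StOn V₁ t 𝔫) (hon₂ : StOn V₂ t 𝔫) :
    StPull t (ssdAut E (M * q) (s.restrictNormal E) * ssdAut E (M * q) (s.restrictNormal E))
      𝔫 𝔫 := by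
  have hq : q.Prime := Fact.out
  obtain ⟨e₁', e₂'⟩ := stcp_two_unique hϖ t h2 h2V
  subst e₁' e₂'
  haveI : CharP (ResidueField ↥(s18dVal 𝔸 E)) q := s18v_charP hϖ (s18d_natCast_mem 𝔸 E hA)
  have hτ : SsvmglStab 𝔸 E (s.restrictNormal E) :=
    ssvmgl_stab_of_dec 𝔸 E s hs.mem_decompositionSubgroup
  obtain ⟨e₁, e₂⟩ := stcp_two_unique hϖ t h2 hW
  subst e₁ e₂
  -- `sE t = t`
  have hfix : ssdAut E (M * q) (s.restrictNormal E) • t = t := by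
    rw [← H.level.coord]
    show ssdAutRing E (M * q) (s.restrictNormal E) (ssvmdIncl E M q t₀) = ssvmdIncl E M q t₀
    rw [ssvmgl_aut_incl]
    congr 1
  obtain ⟨-, -, hV₁, -⟩ := ssvmgl_smul_V 𝔸 E M hA hqM hϖ Ξ G h (s.restrictNormal E) hτ
  have hf := fun b hb => ssvmgl_frob_s 𝔸 E M hA hqM hϖ Ξ G h s hs b (hGauss b hb)
  refine str2_pull ((ssvmdIncl E M q : modularFunctionFieldFullC E M →ₐ[E]
      modularFunctionFieldFullC E (M * q)) : modularFunctionFieldFullC E M →+*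
      modularFunctionFieldFullC E (M * q)) (ssvmfPhi E M q) h.V₁ h.V₂
    ((ssdAutRing E M (s.restrictNormal E) :
      modularFunctionFieldFullC E M ≃+* modularFunctionFieldFullC E M) :
      modularFunctionFieldFullC E M →+* modularFunctionFieldFullC E M)
    (ssdAut E (M * q) (s.restrictNormal E)) q hq.ne_zero (fun b hb => ssga_map_int H.level hb) hInt
    (fun b hb => stcp_int_smul 𝔸 E M (s.restrictNormal E) hτ t₀ hfix₀ hb)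
    (fun x hx => stcp_int_smul 𝔸 E (M * q) (s.restrictNormal E) hτ t hfix hx)
    (fun x hx => stcp_int_inv_smul 𝔸 E (M * q) (s.restrictNormal E) hτ t hfix hx)
    (fun b _ => ssvmgl_aut_incl E M q (s.restrictNormal E) b)
    (fun x _ hx => (hV₁ x).mpr hx) (ssgi_surj₁ H) ?_ ?_ 𝔫 h𝔫 hon₁ hon₂
  · intro b hb
    exact stcp_sub_comm_mem _ (hf b hb).1
  · intro b hb
    exact stcp_sub_comm_mem _ (hf b hb).2

/-- the chart ring of a good coordinate lies in the Gauss ring -/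
theorem stcp_int_le_gauss {ϖ : ↥(s18dVal 𝔸 E)} (hϖ : Irreducible ϖ)
    (t₀ : modularFunctionFieldFullC E M)
    (hc : S18Coord hϖ (modularFunctionFieldFullC E M) t₀)
    {b : modularFunctionFieldFullC E M} (hb : b ∈ s18tInt ↥(s18dVal 𝔸 E) t₀) :
    b ∈ s18vO ↥(s18dVal 𝔸 E) (modularFunctionFieldFullC E M) := by
  rw [← hc.intLoc_eq]
  exact s18tInt_le_intLoc hϖ t₀ hb

/-- the same for the chart `t₀⁻¹` -/
theorem stcp_int_inv_le_gauss {ϖ : ↥(s18dVal 𝔸 E)} (hϖ : Irreducible ϖ)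
    (t₀ : modularFunctionFieldFullC E M)
    (hc : S18Coord hϖ (modularFunctionFieldFullC E M) t₀)
    {b : modularFunctionFieldFullC E M} (hb : b ∈ s18tInt ↥(s18dVal 𝔸 E) t₀⁻¹) :
    b ∈ s18vO ↥(s18dVal 𝔸 E) (modularFunctionFieldFullC E M) := by
  rw [← hc.intLoc_eq]
  have hloc := s18t_loc_inv (L := E) hϖ t₀ hc.transc
  have hint : s18tIntLoc ↥(s18dVal 𝔸 E) t₀⁻¹ (C ϖ) (s18t_prime_C hϖ) =
      s18tIntLoc ↥(s18dVal 𝔸 E) t₀ (C ϖ) (s18t_prime_C hϖ) := by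
    unfold s18tIntLoc
    rw [hloc]
  rw [← hint]
  exact s18tInt_le_intLoc hϖ t₀⁻¹ hb

/-! ### the coordinate `j` -/

set_option maxHeartbeats 1000000 in
/-- **(B2-pull) for `t = j`, `q ≥ 5`** : the hypothesis `hpull` of `stcg_germ_j` for `σ = sE²`. -/
theorem stcp_pull_j [FiniteDimensional ℚ E] (hA : 𝔸.LiesOverPrime q) (hqM : ¬ q ∣ M) (h5 : 5 ≤ q)
    (ζ : E) (hζ : IsPrimitiveRoot ζ (6 * M)) {ϖ : ↥(s18dVal 𝔸 E)} (hϖ : Irreducible ϖ)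
    (s : GQ) (hs : 𝔸.IsFrobeniusAt s q)
    (V₁ V₂ : ValuationSubring (modularFunctionFieldFullC E (M * q)))
    (h2 : SsvTwo hϖ (ssdJ E (M * q)) (ssvmmY E M q - ssvmdJ E (M * q) ^ q)
      (ssvmmY E M q ^ q - ssvmdJ E (M * q)) V₁ V₂)
    (𝔫 : Ideal ↥(s18tInt ↥(s18dVal 𝔸 E) (ssdJ E (M * q)))) (h𝔫 : 𝔫.IsMaximal)
    (hon₁ : StOn V₁ (ssdJ E (M * q)) 𝔫) (hon₂ : StOn V₂ (ssdJ E (M * q)) 𝔫) :
    StPull (ssdJ E (M * q))
      (ssdAut E (M * q) (s.restrictNormal E) * ssdAut E (M * q) (s.restrictNormal E)) 𝔫 𝔫 := by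
  have hc : S18Coord hϖ (modularFunctionFieldFullC E M) (ssdJ E M) :=
    s18v_coord_j' hϖ (s18d_natCast_mem 𝔸 E hA) M hqM
  obtain ⟨Ξ, G, h, h2h⟩ := ssvmm_two_coord 𝔸 E M hA hqM hϖ (ssdJ E M)
    (jqModC ↥(s18dVal 𝔸 E)) (s18v_pole_j M) hc
  rw [ssgk_incl_j] at h2h
  obtain ⟨j₀, W₁, W₂, -, H, hW⟩ := (ssgms_hSingle_J M q hqM h5 𝔸 hA E ζ hζ).1 ϖ hϖ
  exact stcp_pull 𝔸 E M hA hqM hϖ s hs (ssdJ E M) (ssdJ E (M * q))
    (ssvmgl_aut_J E M (s.restrictNormal E))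
    (fun b hb => stcp_int_le_gauss 𝔸 E M hϖ _ hc hb) (ssgtr_hInt_J M q hqM h5 𝔸 hA E) H hW
    Ξ G h h2h h2 𝔫 h𝔫 hon₁ hon₂

/-! ### the coordinates `h_a`, `h_a⁻¹` -/

variable (a : ℕ) [NeZero a] (ha : a = 2 ∨ a = 3) (haM : a ∣ M)

/-- `h_a` has rational coefficients -/
theorem stcp_aut_H (N : ℕ) [NeZero N] (haN : a ∣ N) (τ : E ≃ₐ[ℚ] E) :
    ssdAut E N τ • ssgH E N a ha haN = ssgH E N a ha haN := by
  apply Subtype.ext
  rw [coe_ssdAut_smul, coe_ssgH]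
  exact s18rs_coeffMap_hq (τ : E →+* E) a (s18hExp a)

/-- `h_a` is a good coordinate at the level `M` -/
theorem stcp_coord_H (hA : 𝔸.LiesOverPrime q) (hqM : ¬ q ∣ M) {ϖ : ↥(s18dVal 𝔸 E)}
    (hϖ : Irreducible ϖ) :
    S18Coord hϖ (modularFunctionFieldFullC E M) (ssgH E M a ha haM) :=
  s18hk_coord hϖ a ha M s18h_identity_two s18h_identity_three (ssgH E M a ha haM).2
    (s18v_coord_j hϖ (s18d_natCast_mem 𝔸 E hA) M hqM)

set_option maxHeartbeats 1000000 in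
/-- **(B2-pull) for `t = h_a`, `q ∈ {2,3}`** : the hypothesis `hpull` of `stcg_germ_h` for
`σ = sE²`. -/
theorem stcp_pull_h [FiniteDimensional ℚ E] (hA : 𝔸.LiesOverPrime q) (hqM : ¬ q ∣ M)
    (hqa : (q = 2 ∧ a = 3) ∨ (q = 3 ∧ a = 2))
    (ζ : E) (hζ : IsPrimitiveRoot ζ M) {ϖ : ↥(s18dVal 𝔸 E)} (hϖ : Irreducible ϖ)
    (s : GQ) (hs : 𝔸.IsFrobeniusAt s q)
    (V₁ V₂ : ValuationSubring (modularFunctionFieldFullC E (M * q)))
    (h2 : SsvTwo hϖ (ssgH E (M * q) a ha (Dvd.dvd.mul_right haM q))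
      (ssvmmY E M q - ssvmdJ E (M * q) ^ q) (ssvmmY E M q ^ q - ssvmdJ E (M * q)) V₁ V₂)
    (𝔫 : Ideal ↥(s18tInt ↥(s18dVal 𝔸 E) (ssgH E (M * q) a ha (Dvd.dvd.mul_right haM q))))
    (h𝔫 : 𝔫.IsMaximal)
    (hon₁ : StOn V₁ (ssgH E (M * q) a ha (Dvd.dvd.mul_right haM q)) 𝔫)
    (hon₂ : StOn V₂ (ssgH E (M * q) a ha (Dvd.dvd.mul_right haM q)) 𝔫) :
    StPull (ssgH E (M * q) a ha (Dvd.dvd.mul_right haM q))
      (ssdAut E (M * q) (s.restrictNormal E) * ssdAut E (M * q) (s.restrictNormal E)) 𝔫 𝔫 := by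
  have hc := stcp_coord_H 𝔸 E M a ha haM hA hqM hϖ
  obtain ⟨Ξ, G, h, h2h⟩ := ssvmm_two_coord 𝔸 E M hA hqM hϖ (ssgH E M a ha haM)
    (s18hq a (s18hExp a) ↥(s18dVal 𝔸 E))
    (s18hk_pole _ a (s18hExp a) (ssgH E M a ha haM).2) hc
  rw [ssgk_incl_h] at h2h
  obtain ⟨j₀, W₁, W₂, -, H, hW⟩ :=
    (ssgms_hSingle_H M q a ha haM hqa hqM 𝔸 hA E ζ hζ).1 ϖ hϖ
  exact stcp_pull 𝔸 E M hA hqM hϖ s hs (ssgH E M a ha haM)
    (ssgH E (M * q) a ha (Dvd.dvd.mul_right haM q))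
    (stcp_aut_H E a ha M haM (s.restrictNormal E))
    (fun b hb => stcp_int_le_gauss 𝔸 E M hϖ _ hc hb)
    (ssgnp_hInt 𝔸 hA E M a ha haM hqa (ssgcl_modPoly_over q 𝔸 hA E)).1 H hW
    Ξ G h h2h h2 𝔫 h𝔫 hon₁ hon₂

set_option maxHeartbeats 1000000 in
/-- **(B2-pull) for the chart `h_a⁻¹`, `q ∈ {2,3}`** : the hypothesis `hpull'` of `stcg_germ_h` for
`σ = sE²`. -/
theorem stcp_pull_h_inv [FiniteDimensional ℚ E] (hA : 𝔸.LiesOverPrime q) (hqM : ¬ q ∣ M)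
    (hqa : (q = 2 ∧ a = 3) ∨ (q = 3 ∧ a = 2))
    (ζ : E) (hζ : IsPrimitiveRoot ζ M) {ϖ : ↥(s18dVal 𝔸 E)} (hϖ : Irreducible ϖ)
    (s : GQ) (hs : 𝔸.IsFrobeniusAt s q)
    (V₁ V₂ : ValuationSubring (modularFunctionFieldFullC E (M * q)))
    (h2 : SsvTwo hϖ (ssgH E (M * q) a ha (Dvd.dvd.mul_right haM q))
      (ssvmmY E M q - ssvmdJ E (M * q) ^ q) (ssvmmY E M q ^ q - ssvmdJ E (M * q)) V₁ V₂)
    (𝔫 : Ideal ↥(s18tInt ↥(s18dVal 𝔸 E) (ssgH E (M * q) a ha (Dvd.dvd.mul_right haM q))⁻¹))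
    (h𝔫 : 𝔫.IsMaximal)
    (hon₁ : StOn V₁ (ssgH E (M * q) a ha (Dvd.dvd.mul_right haM q))⁻¹ 𝔫)
    (hon₂ : StOn V₂ (ssgH E (M * q) a ha (Dvd.dvd.mul_right haM q))⁻¹ 𝔫) :
    StPull (ssgH E (M * q) a ha (Dvd.dvd.mul_right haM q))⁻¹
      (ssdAut E (M * q) (s.restrictNormal E) * ssdAut E (M * q) (s.restrictNormal E)) 𝔫 𝔫 := by
  have hc := stcp_coord_H 𝔸 E M a ha haM hA hqM hϖ
  have ht := ssg_transcendental_h E (M * q) a ha (Dvd.dvd.mul_right haM q)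
  obtain ⟨Ξ, G, h, h2h⟩ := ssvmm_two_coord 𝔸 E M hA hqM hϖ (ssgH E M a ha haM)
    (s18hq a (s18hExp a) ↥(s18dVal 𝔸 E))
    (s18hk_pole _ a (s18hExp a) (ssgH E M a ha haM).2) hc
  rw [ssgk_incl_h] at h2h
  obtain ⟨j₀, W₁, W₂, -, H, hW⟩ :=
    (ssgms_hSingle_H M q a ha haM hqa hqM 𝔸 hA E ζ hζ).2 ϖ hϖ
  refine stcp_pull 𝔸 E M hA hqM hϖ s hs (ssgH E M a ha haM)⁻¹
    (ssgH E (M * q) a ha (Dvd.dvd.mul_right haM q))⁻¹ ?_
    (fun b hb => stcp_int_inv_le_gauss 𝔸 E M hϖ _ hc hb)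
    (ssgnp_hInt 𝔸 hA E M a ha haM hqa (ssgcl_modPoly_over q 𝔸 hA E)).2 H hW
    Ξ G h (ssgtop_two_inv hϖ ht h2h) (ssgtop_two_inv hϖ ht h2) 𝔫 h𝔫 hon₁ hon₂
  rw [smul_inv'', stcp_aut_H E a ha M haM (s.restrictNormal E)]

end Conc

/-! ### the germ hypotheses of `st_toric` for `σ = sE²` -/

/-- **(B2-germ + B2-pull) for `t = j`, `q ≥ 5`** : the hypotheses `hgerm0`, `hgerminf` of `st_toric`
at level `M q` for `σ = sE²`, `sE = ssdAut E (M q) (s|_E)`, `s` a Frobenius lift at `𝔸 | q`, for all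
big enough number fields `E`. -/
theorem stcp_germ_j (M : ℕ) [NeZero M] (q : ℕ) [Fact q.Prime] [NeZero q] (hqM : ¬ q ∣ M)
    (h5 : 5 ≤ q) (𝔸 : ValuationSubring Qb) (hA : 𝔸.LiesOverPrime q) :
    ∃ (E₁ : IntermediateField ℚ Qb) (_ : FiniteDimensional ℚ E₁),
      ∀ (E : IntermediateField ℚ Qb) [FiniteDimensional ℚ E] [Normal ℚ E]
        [IsDiscreteValuationRing ↥(s18dVal 𝔸 E)] [CharZero ↥(s18dVal 𝔸 E)], E₁ ≤ E →
        ∀ (ϖ : ↥(s18dVal 𝔸 E)) (hϖ : Irreducible ϖ)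
          (V₁ V₂ : ValuationSubring (modularFunctionFieldFullC E (M * q))),
          SsvTwo hϖ (ssdJ E (M * q)) (ssvmmY E M q - ssvmdJ E (M * q) ^ q)
            (ssvmmY E M q ^ q - ssvmdJ E (M * q)) V₁ V₂ →
          ∀ s : GQ, 𝔸.IsFrobeniusAt s q →
          (∀ 𝔫 : Ideal ↥(s18tInt ↥(s18dVal 𝔸 E) (ssdJ E (M * q))), 𝔫.IsMaximal →
            sskPi ϖ (ssdJ E (M * q)) ∈ 𝔫 → StRes (ssdJ E (M * q)) 𝔫 →
            StGermAt ϖ (ssdJ E (M * q)) (ssInertiaE E (M * q) 𝔸) V₁ V₂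
              (ssdAut E (M * q) (s.restrictNormal E) * ssdAut E (M * q) (s.restrictNormal E))
              𝔫) ∧
          (∀ 𝔫 : Ideal ↥(s18tInt ↥(s18dVal 𝔸 E) (ssdJ E (M * q))⁻¹), 𝔫.IsMaximal →
            sskPi ϖ (ssdJ E (M * q))⁻¹ ∈ 𝔫 →
            ssglTinv (A := ↥(s18dVal 𝔸 E)) (ssdJ E (M * q)) ∈ 𝔫 →
            StRes (ssdJ E (M * q))⁻¹ 𝔫 →
            StGermAt ϖ (ssdJ E (M * q))⁻¹ (ssInertiaE E (M * q) 𝔸) V₁ V₂
              (ssdAut E (M * q) (s.restrictNormal E) * ssdAut E (M * q) (s.restrictNormal E))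
              𝔫) := by
  obtain ⟨E₁, hE₁, hE⟩ := stcg_germ_j M q hqM h5 𝔸 hA
  have h6M : 0 < 6 * M := Nat.mul_pos (by norm_num) (Nat.pos_of_ne_zero (NeZero.ne M))
  obtain ⟨ζ, hζ⟩ := s18dd_exists_primitiveRoot (6 * M) h6M
  haveI := hE₁
  haveI := s18dd_finiteDimensional_adjoin ζ
  refine ⟨E₁ ⊔ ℚ⟮ζ⟯, IntermediateField.finiteDimensional_sup E₁ ℚ⟮ζ⟯, ?_⟩
  intro E _ _ _ _ hle ϖ hϖ V₁ V₂ h2 s hs
  have hζE : ζ ∈ E := hle ((le_sup_right : ℚ⟮ζ⟯ ≤ E₁ ⊔ ℚ⟮ζ⟯)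
    (IntermediateField.mem_adjoin_simple_self ℚ ζ))
  have hζEprim : IsPrimitiveRoot (⟨ζ, hζE⟩ : E) (6 * M) :=
    IsPrimitiveRoot.of_map_of_injective (f := algebraMap E Qb) (by exact hζ)
      (algebraMap E Qb).injective
  exact hE E (le_trans le_sup_left hle) ϖ hϖ _ _ V₁ V₂ h2 h2.mem₁ h2.mem₂ _
    (fun 𝔫 h𝔫 _ _ hon₁ hon₂ =>
      stcp_pull_j 𝔸 E M hA hqM h5 ⟨ζ, hζE⟩ hζEprim hϖ s hs V₁ V₂ h2 𝔫 h𝔫 hon₁ hon₂)

/-- **(B2-germ + B2-pull) for `t = h_a`, `q ∈ {2,3}`, `a = 5 - q`, `a ∣ M`** : the hypotheses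
`hgerm0`, `hgerminf` of `st_toric` at level `M q` for `σ = sE²`. -/
theorem stcp_germ_h (M : ℕ) [NeZero M] (q : ℕ) [Fact q.Prime] [NeZero q] (a : ℕ) [NeZero a]
    (ha : a = 2 ∨ a = 3) (haM : a ∣ M) (hqa : (q = 2 ∧ a = 3) ∨ (q = 3 ∧ a = 2)) (hqM : ¬ q ∣ M)
    (𝔸 : ValuationSubring Qb) (hA : 𝔸.LiesOverPrime q) :
    ∃ (E₁ : IntermediateField ℚ Qb) (_ : FiniteDimensional ℚ E₁),
      ∀ (E : IntermediateField ℚ Qb) [FiniteDimensional ℚ E] [Normal ℚ E]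
        [IsDiscreteValuationRing ↥(s18dVal 𝔸 E)] [CharZero ↥(s18dVal 𝔸 E)], E₁ ≤ E →
        ∀ (ϖ : ↥(s18dVal 𝔸 E)) (hϖ : Irreducible ϖ)
          (V₁ V₂ : ValuationSubring (modularFunctionFieldFullC E (M * q))),
          SsvTwo hϖ (ssgH E (M * q) a ha (Dvd.dvd.mul_right haM q))
            (ssvmmY E M q - ssvmdJ E (M * q) ^ q) (ssvmmY E M q ^ q - ssvmdJ E (M * q)) V₁ V₂ →
          ∀ s : GQ, 𝔸.IsFrobeniusAt s q →
          (∀ 𝔫 : Ideal ↥(s18tInt ↥(s18dVal 𝔸 E) (ssgH E (M * q) a ha (Dvd.dvd.mul_right haM q))),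
            𝔫.IsMaximal → sskPi ϖ (ssgH E (M * q) a ha (Dvd.dvd.mul_right haM q)) ∈ 𝔫 →
            StRes (ssgH E (M * q) a ha (Dvd.dvd.mul_right haM q)) 𝔫 →
            StGermAt ϖ (ssgH E (M * q) a ha (Dvd.dvd.mul_right haM q)) (ssInertiaE E (M * q) 𝔸)
              V₁ V₂
              (ssdAut E (M * q) (s.restrictNormal E) * ssdAut E (M * q) (s.restrictNormal E))
              𝔫) ∧
          (∀ 𝔫 : Ideal ↥(s18tInt ↥(s18dVal 𝔸 E) (ssgH E (M * q) a ha (Dvd.dvd.mul_right haM q))⁻¹),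
            𝔫.IsMaximal → sskPi ϖ (ssgH E (M * q) a ha (Dvd.dvd.mul_right haM q))⁻¹ ∈ 𝔫 →
            ssglTinv (A := ↥(s18dVal 𝔸 E)) (ssgH E (M * q) a ha (Dvd.dvd.mul_right haM q)) ∈ 𝔫 →
            StRes (ssgH E (M * q) a ha (Dvd.dvd.mul_right haM q))⁻¹ 𝔫 →
            StGermAt ϖ (ssgH E (M * q) a ha (Dvd.dvd.mul_right haM q))⁻¹
              (ssInertiaE E (M * q) 𝔸) V₁ V₂
              (ssdAut E (M * q) (s.restrictNormal E) * ssdAut E (M * q) (s.restrictNormal E))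
              𝔫) := by
  obtain ⟨E₁, hE₁, hE⟩ := stcg_germ_h M q a ha haM hqa hqM 𝔸 hA
  have hMpos : 0 < M := Nat.pos_of_ne_zero (NeZero.ne M)
  obtain ⟨ζ, hζ⟩ := s18dd_exists_primitiveRoot M hMpos
  haveI := hE₁
  haveI := s18dd_finiteDimensional_adjoin ζ
  refine ⟨E₁ ⊔ ℚ⟮ζ⟯, IntermediateField.finiteDimensional_sup E₁ ℚ⟮ζ⟯, ?_⟩
  intro E _ _ _ _ hle ϖ hϖ V₁ V₂ h2 s hs
  have hζE : ζ ∈ E := hle ((le_sup_right : ℚ⟮ζ⟯ ≤ E₁ ⊔ ℚ⟮ζ⟯)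
    (IntermediateField.mem_adjoin_simple_self ℚ ζ))
  have hζEprim : IsPrimitiveRoot (⟨ζ, hζE⟩ : E) M :=
    IsPrimitiveRoot.of_map_of_injective (f := algebraMap E Qb) (by exact hζ)
      (algebraMap E Qb).injective
  exact hE E (le_trans le_sup_left hle) ϖ hϖ V₁ V₂ _
    (fun 𝔫 h𝔫 _ _ hon₁ hon₂ =>
      stcp_pull_h 𝔸 E M a ha haM hA hqM hqa ⟨ζ, hζE⟩ hζEprim hϖ s hs V₁ V₂ h2 𝔫 h𝔫 hon₁ hon₂)
    (fun 𝔫 h𝔫 _ _ _ hon₁ hon₂ =>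
      stcp_pull_h_inv 𝔸 E M a ha haM hA hqM hqa ⟨ζ, hζE⟩ hζEprim hϖ s hs V₁ V₂ h2 𝔫 h𝔫
        hon₁ hon₂)

end Fermat.Agent.ST
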