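import Mathlib
import Fermat.Agent.ST.Defs

/-!
# Program T (S35), concrete side : products of Frobenius lifts (`StFrob.mul`, `StFrob.sq`)
-/

set_option autoImplicit false
set_option linter.unusedSectionVars false
set_option linter.unusedVariables false

noncomputable section

namespace Fermat.Agent.ST

open Polynomial IntermediateField AlgebraicCurve Fermat.Agent.S18 Fermat.Agent.SS

universe u

variable {A : Type*} [CommRing A] [IsDomain A] [IsDiscreteValuationRing A] [CharZero A]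
variable {L : Type*} [Field L] [Algebra A L] [IsFractionRing A L]
variable {F : Type u} [Field F] [Algebra A F] [Algebra L F] [IsScalarTower A L F]
variable {ϖ : A} {t : F} {V₁ V₂ : ValuationSubring F}

/-- the product of a `Q`-Frobenius lift and a `Q'`-Frobenius lift is a `Q' Q`-Frobenius lift -/
theorem StFrob.mul {Q Q' : ℕ} {σ σ' : SemilinearAut L F} (h : StFrob ϖ t V₁ V₂ Q σ)
    (h' : StFrob ϖ t V₁ V₂ Q' σ') : StFrob ϖ t V₁ V₂ (Q' * Q) (σ * σ') where
  t_fixed := by rw [mul_smul, h'.t_fixed, h.t_fixed]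
  base a := by
    obtain ⟨b', hb'⟩ := h'.base a
    obtain ⟨b'', hb''⟩ := h.base (a ^ Q' + ϖ * b')
    obtain ⟨c, hc⟩ := sub_dvd_pow_sub_pow (a ^ Q' + ϖ * b') (a ^ Q') Q
    refine ⟨b' * c + b'', ?_⟩
    rw [mul_smul, hb', hb'']
    congr 1
    rw [add_sub_cancel_left] at hc
    have e : (a ^ Q' + ϖ * b') ^ Q = (a ^ Q') ^ Q + ϖ * b' * c := by
      rw [← hc]; ring
    rw [e, ← pow_mul]
    ring
  base_inv a := by
    obtain ⟨b, hb⟩ := h.base_inv a
    obtain ⟨c, hc⟩ := h'.base_inv b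
    exact ⟨c, by rw [mul_inv_rev, mul_smul, hb, hc]⟩
  val₁ x := by rw [mul_smul, h.val₁, h'.val₁]
  val₂ x := by rw [mul_smul, h.val₂, h'.val₂]

/-- the square of a `q`-Frobenius lift is a `q²`-Frobenius lift -/
theorem StFrob.sq {q : ℕ} {σ : SemilinearAut L F} (h : StFrob ϖ t V₁ V₂ q σ) :
    StFrob ϖ t V₁ V₂ (q ^ 2) (σ * σ) := by
  rw [pow_two]
  exact h.mul h

end Fermat.Agent.ST
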