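import Mathlib
import Fermat.Agent.ST.Conc.Sq
import Fermat.Agent.ST.Conc.Pull
import Fermat.Agent.S35.G1.Toric
import Fermat.Agent.SS.Germ.ModSingle
import Fermat.Agent.ST.Top.Geo

/-!
# Program T (S35), concrete side : THE ASSEMBLY `SttGeoAt M q` (prefix `stcc_`)

Setting of `SS/Val/ModMain.lean` : `q` prime, `𝔸 | q`, `E/ℚ` normal with `A₀ = 𝔸 ∩ E` a DVR, `q ∤ M`,
`F₀ = F_E(M)`, `F = F_E(M q)`, `α = ssvmdIncl E M q`, `φ = ssvmfPhi E M q`, `V₁ = h.V₁`, `V₂ = h.V₂` for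
ONE witness `h` of `SsvAmb`; `s ∈ G_ℚ` a Frobenius lift at `𝔸`, `sE = ssdAut E (M q) (s|_E)`.

* `stcc_frob1` : `sE` is a `q`-Frobenius lift (`StFrob`) for every coordinate fixed by `sE`;
  its square is a `q²`-Frobenius lift (`StFrob.sq`);
* `stcc_g1` : the toric normalisation in the `V`-free form of `SttGeo.g1` (helper28 `s35gc_toric`);
* the germs : helper5 `stcp_germ_j`, `stcp_germ_h` (`ST/Conc/Pull.lean`);
* `stcc_geoAt_j` (`q ≥ 5`, `t = j`), `stcc_geoAt_h` (`q ∈ {2,3}`, `t = h_a`, `a = 5 - q ∣ M`) :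
  **`SttGeoAt M q`**.
-/

set_option autoImplicit false
set_option linter.unusedSectionVars false
set_option linter.unusedVariables false
set_option linter.style.haveILetI false
set_option synthInstance.maxHeartbeats 400000

noncomputable section

namespace Fermat.Agent.ST

open Polynomial ModularCurve AlgebraicCurve IsLocalRing IntermediateField Fermat.Agent.S18
  Fermat.Agent.SS Fermat.Agent.G

local notation "Qb" => AlgebraicClosure ℚ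
local notation "GQ" => (AlgebraicClosure ℚ ≃ₐ[ℚ] AlgebraicClosure ℚ)

section Side

variable {q : ℕ} [Fact q.Prime] [NeZero q] (𝔸 : ValuationSubring Qb) (E : IntermediateField ℚ Qb)
  [Normal ℚ E] [IsDiscreteValuationRing ↥(s18dVal 𝔸 E)] [CharZero ↥(s18dVal 𝔸 E)] (M : ℕ)
  [NeZero M]
variable {ϖ : ↥(s18dVal 𝔸 E)} {Ξ G : (↥(ssvmmR 𝔸 E M q))[X]}
  (h : SsvAmb (ssvmmR 𝔸 E M q) (ssvmgRUnif (ssvmm_le E M q) ϖ) (ssvmmY E M q) Ξ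
    (X - C (ssvmmJ 𝔸 E M q ^ q)) (X ^ q - C (ssvmmJ 𝔸 E M q)) G)

/-- `sE` is a `q`-Frobenius lift for every coordinate it fixes -/
theorem stcc_frob1 (hA : 𝔸.LiesOverPrime q) (hqM : ¬ q ∣ M) (hϖ : Irreducible ϖ) (s : GQ)
    (hs : 𝔸.IsFrobeniusAt s q) (t : modularFunctionFieldFullC E (M * q))
    (ht : ssdAut E (M * q) (s.restrictNormal E) • t = t) :
    StFrob ϖ t h.V₁ h.V₂ q (ssdAut E (M * q) (s.restrictNormal E)) := by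
  have hτ : SsvmglStab 𝔸 E (s.restrictNormal E) :=
    ssvmgl_stab_of_dec 𝔸 E s hs.mem_decompositionSubgroup
  obtain ⟨v1, v2, -, -⟩ := ssvmgl_smul_V 𝔸 E M hA hqM hϖ Ξ G h (s.restrictNormal E) hτ
  refine ⟨ht, fun a => ?_, fun a => ?_, v1, v2⟩
  · obtain ⟨b, hb⟩ := ssvmgl_frob_base 𝔸 E s hs hϖ a
    refine ⟨b, ?_⟩
    rw [ssvmgl_smul_eq, Fermat.Agent.S35.s35gc_aut_const 𝔸 E (M * q) _ hτ a, hb]
  · refine ⟨ssvmglBase 𝔸 E (s.restrictNormal E).symm hτ.symm a, ?_⟩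
    rw [← map_inv]
    exact Fermat.Agent.S35.s35gc_aut_const 𝔸 E (M * q) _ hτ.symm a

/-- (G1) the toric normalisation in the `V`-free form of `SttGeo.g1` -/
theorem stcc_g1 (hA : 𝔸.LiesOverPrime q) (hqM : ¬ q ∣ M) (hϖ : Irreducible ϖ) (s : GQ)
    (hs : 𝔸.IsFrobeniusAt s q) (t : modularFunctionFieldFullC E (M * q))
    {u₁ u₂ : modularFunctionFieldFullC E (M * q)} (h2 : SsvTwo hϖ t u₁ u₂ h.V₁ h.V₂)
    (n : ℕ) (hn : n ≠ 0) (f : modularFunctionFieldFullC E (M * q))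
    (hf : f ∈ s18tIntLoc ↥(s18dVal 𝔸 E) t (C ϖ) (s18t_prime_C hϖ))
    (hf' : f⁻¹ ∈ s18tIntLoc ↥(s18dVal 𝔸 E) t (C ϖ) (s18t_prime_C hϖ))
    (v v' : modularFunctionFieldFullC E M)
    (hα : sttNorm (ssvmdIncl E M q).toRingHom f = v ^ n)
    (hφ : sttNorm (ssvmfPhi E M q) f = v' ^ n) :
    ∃ U : modularFunctionFieldFullC E (M * q),
      U ∈ s18tIntLoc ↥(s18dVal 𝔸 E) t (C ϖ) (s18t_prime_C hϖ) ∧
      S18DvdGauss hϖ t
        (ssdAut E (M * q) (s.restrictNormal E) • (ssdAut E (M * q) (s.restrictNormal E) • f) -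
          f * U ^ n) := by
  haveI : CharP (ResidueField ↥(s18dVal 𝔸 E)) q := s18v_charP hϖ (s18d_natCast_mem 𝔸 E hA)
  by_cases hf0 : f = 0
  · refine ⟨0, Subring.zero_mem _, ?_⟩
    rw [hf0, smul_zero, smul_zero, zero_mul, sub_zero]
    exact ⟨0, Subring.zero_mem _, by rw [mul_zero]⟩
  · obtain ⟨hf₁, hf₂⟩ := (h2.mem_iff f).mp hf
    obtain ⟨hf₁', hf₂'⟩ := (h2.mem_iff f⁻¹).mp hf'
    obtain ⟨U, hU₁, hU₂, c₁, c₂⟩ := Fermat.Agent.S35.s35gc_toric 𝔸 E M h hA hqM hϖ s hs hf₁ hf₁'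
      hf₂ hf₂' hf0 hn hα hφ
    refine ⟨U, (h2.mem_iff U).mpr ⟨hU₁, hU₂⟩, ?_⟩
    rw [h2.dvd_iff]
    exact ⟨c₁.2.2, c₂.2.2⟩

end Side


/-! ### the assembly for `t = j`, `q ≥ 5` -/

section GeoJ

variable (M q : ℕ) [NeZero M] [Fact q.Prime] [NeZero q]

/-- the `E`-form of `j` goes to ONE function of `F_ℚ̄(N)` -/
theorem stcc_up_j (E : IntermediateField ℚ Qb) (N : ℕ) [NeZero N] :
    ssdUp E N (ssdJ E N) = ssdUp ⊥ N (ssdJ ⊥ N) :=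
  Subtype.ext ((s18r_up_j E).trans (s18r_up_j ⊥).symm)

set_option maxHeartbeats 2000000 in
/-- **`SttGeoAt M q` for `q ≥ 5`**, chart coordinate `t = j`. -/
theorem stcc_geoAt_j (hqM : ¬ q ∣ M) (h5 : 5 ≤ q) : SttGeoAt M q := by
  intro 𝔸 hA s hs
  obtain ⟨E₁, hE₁, hE⟩ := stcp_germ_j M q hqM h5 𝔸 hA
  refine ⟨ssdUp ⊥ (M * q) (ssdJ ⊥ (M * q)), E₁, hE₁, ?_⟩
  intro E _ _ _ _ hle
  refine ⟨ssdJ E (M * q), stcc_up_j E (M * q), ?_⟩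
  have ht : ssdAut E (M * q) (s.restrictNormal E) • ssdJ E (M * q) = ssdJ E (M * q) :=
    ssvmgl_aut_J E (M * q) _
  refine ⟨ssd_transcendental_j E (M * q), ssd_finiteDimensional_j E (M * q), ?_, ?_⟩
  · intro ϖ hϖ
    obtain ⟨Ξ, G, h, h2⟩ := ssgms_two_j 𝔸 E M hA hqM ϖ hϖ
    have hg := hE E hle ϖ hϖ h.V₁ h.V₂ h2 s hs
    exact ⟨ssInertiaE E (M * q) 𝔸, _, _, h.V₁, h.V₂, h2,
      (stcc_frob1 𝔸 E M h hA hqM hϖ s hs _ ht).sq, hg.1, hg.2⟩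
  · intro ϖ hϖ n hn f hf hf' v v' hα hφ
    obtain ⟨Ξ, G, h, h2⟩ := ssgms_two_j 𝔸 E M hA hqM ϖ hϖ
    exact stcc_g1 𝔸 E M h hA hqM hϖ s hs _ h2 n hn f hf hf' v v' hα hφ

end GeoJ

/-! ### the assembly for `t = h_a`, `q ∈ {2,3}`, `a = 5 - q`, `a ∣ M` -/

section GeoH

variable (M q : ℕ) [NeZero M] [Fact q.Prime] [NeZero q]

/-- the `E`-form of `h_a` goes to ONE function of `F_ℚ̄(N)` -/
theorem stcc_up_h (E : IntermediateField ℚ Qb) (N : ℕ) [NeZero N] (a : ℕ) [NeZero a]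
    (ha : a = 2 ∨ a = 3) (haN : a ∣ N) :
    ssdUp E N (ssgH E N a ha haN) = ssdUp ⊥ N (ssgH ⊥ N a ha haN) :=
  Subtype.ext ((s18rs_coeffMap_hq _ a (s18hExp a)).trans (s18rs_coeffMap_hq _ a (s18hExp a)).symm)

set_option maxHeartbeats 2000000 in
/-- **`SttGeoAt M q` for `q ∈ {2,3}`**, chart coordinate `t = h_a`, `a = 5 - q`, `a ∣ M`. -/
theorem stcc_geoAt_h (a : ℕ) [NeZero a] (ha : a = 2 ∨ a = 3) (haM : a ∣ M)
    (hqa : (q = 2 ∧ a = 3) ∨ (q = 3 ∧ a = 2)) (hqM : ¬ q ∣ M) : SttGeoAt M q := by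
  intro 𝔸 hA s hs
  obtain ⟨E₁, hE₁, hE⟩ := stcp_germ_h M q a ha haM hqa hqM 𝔸 hA
  refine ⟨ssdUp ⊥ (M * q) (ssgH ⊥ (M * q) a ha (Dvd.dvd.mul_right haM q)), E₁, hE₁, ?_⟩
  intro E _ _ _ _ hle
  refine ⟨ssgH E (M * q) a ha (Dvd.dvd.mul_right haM q),
    stcc_up_h E (M * q) a ha (Dvd.dvd.mul_right haM q), ?_⟩
  have ht : ssdAut E (M * q) (s.restrictNormal E) • ssgH E (M * q) a ha (Dvd.dvd.mul_right haM q) =
      ssgH E (M * q) a ha (Dvd.dvd.mul_right haM q) :=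
    stcp_aut_H E a ha (M * q) (Dvd.dvd.mul_right haM q) _
  refine ⟨ssg_transcendental_h E (M * q) a ha (Dvd.dvd.mul_right haM q),
    ssg_finiteDimensional_h E (M * q) a ha (Dvd.dvd.mul_right haM q), ?_, ?_⟩
  · intro ϖ hϖ
    obtain ⟨Ξ, G, h, h2⟩ := ssgms_two_h 𝔸 E M a ha haM hA hqM ϖ hϖ
    have hg := hE E hle ϖ hϖ h.V₁ h.V₂ h2 s hs
    exact ⟨ssInertiaE E (M * q) 𝔸, _, _, h.V₁, h.V₂, h2,
      (stcc_frob1 𝔸 E M h hA hqM hϖ s hs _ ht).sq, hg.1, hg.2⟩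
  · intro ϖ hϖ n hn f hf hf' v v' hα hφ
    obtain ⟨Ξ, G, h, h2⟩ := ssgms_two_h 𝔸 E M a ha haM hA hqM ϖ hϖ
    exact stcc_g1 𝔸 E M h hA hqM hϖ s hs _ h2 n hn f hf hf' v v' hα hφ

end GeoH

/-! ### the two hypotheses of `st_killBox_of_geo` (`ST/Top/Box.lean`), literally -/

/-- `SttGeoJ` of `ST/Top/Box.lean`, unfolded -/
theorem stcc_geoJ : ∀ (M q : ℕ) [NeZero M] [NeZero q], q.Prime → ¬ q ∣ M → 5 ≤ q →
    SttGeoAt M q := by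
  intro M q _ _ hq hqM h5
  haveI : Fact q.Prime := ⟨hq⟩
  exact stcc_geoAt_j M q hqM h5

/-- `SttGeoH` of `ST/Top/Box.lean`, unfolded -/
theorem stcc_geoH : ∀ (M q : ℕ) [NeZero M] [NeZero q], ¬ q ∣ M →
    (q = 2 ∧ 3 ∣ M ∨ q = 3 ∧ 2 ∣ M) → SttGeoAt M q := by
  intro M q _ _ hqM h
  rcases h with ⟨hq2, h3⟩ | ⟨hq3, h2⟩
  · haveI : Fact q.Prime := ⟨by rw [hq2]; exact Nat.prime_two⟩
    exact stcc_geoAt_h M q 3 (Or.inr rfl) h3 (Or.inl ⟨hq2, rfl⟩) hqM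
  · haveI : Fact q.Prime := ⟨by rw [hq3]; exact Nat.prime_three⟩
    exact stcc_geoAt_h M q 2 (Or.inl rfl) h2 (Or.inr ⟨hq3, rfl⟩) hqM

end Fermat.Agent.ST
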